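import Fermat.Agent.S55.Mackey.Shapiro
import Mathlib.GroupTheory.DoubleCoset

/-!
# S55 (helper61): Mackey–Shapiro — the classical Mackey system

For `α : H →* G`, `D ≤ G` and `x : G` put `twSub α D x = {h : H | x α(h) x⁻¹ ∈ D}` (the "twisted
intersection" `H ∩ x⁻¹ D x`) and `twHom α D x : twSub α D x →* D`, `h ↦ x α(h) x⁻¹`.

* `isMackeySystem_tw` : for any system `x : ι → G` of representatives of the double cosets
  `D \ G / α(H)`, the groups `twSub α D (x i)` form a Mackey system;
* `isMackeySystem_doset` : the same for the canonical representatives `q.out`,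
  `q : DoubleCoset.Quotient D α.range`;
* `mackeyTw_bijective` : `Hⁿ(H, Res_α Coind_D^G A) ≃ ∏ᵢ Hⁿ(H ∩ xᵢ⁻¹ D xᵢ, Res A)`.
-/

set_option autoImplicit false

open CategoryTheory CategoryTheory.Limits groupCohomology

namespace Fermat.Agent.S55.Mackey

universe u v

variable {k H G : Type u} [CommRing k] [Group H] [Group G]

section Tw

variable (α : H →* G) (D : Subgroup G)

/-- The twisted intersection `{h : H | x α(h) x⁻¹ ∈ D}`. -/
def twSub (x : G) : Subgroup H := D.comap ((MulAut.conj x).toMonoidHom.comp α)

lemma mem_twSub {x : G} {h : H} : h ∈ twSub α D x ↔ x * α h * x⁻¹ ∈ D := Iff.rfl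

/-- The homomorphism `twSub α D x →* D`, `h ↦ x α(h) x⁻¹`. -/
def twHom (x : G) : twSub α D x →* D where
  toFun h := ⟨x * α h * x⁻¹, h.2⟩
  map_one' := by
    apply Subtype.ext
    simp
  map_mul' a b := by
    apply Subtype.ext
    simp [mul_assoc]

@[simp]
lemma coe_twHom (x : G) (h : twSub α D x) : ((twHom α D x h : D) : G) = x * α h * x⁻¹ := rfl

/-- Any system of representatives of `D \ G / α(H)` gives a Mackey system. -/
theorem isMackeySystem_tw {ι : Type v} (x : ι → G)
    (hcover : ∀ g : G, ∃ i, ∃ d : D, ∃ h : H, g = (d : G) * x i * α h)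
    (hdisj : ∀ i i' (d : D) (h : H), x i = (d : G) * x i' * α h → i = i') :
    IsMackeySystem α D (fun i => twSub α D (x i)) (fun i => (twSub α D (x i)).subtype)
      (fun i => twHom α D (x i)) x where
  comm := fun i h' => by
    simp [coe_twHom]
  inj := fun i => Subtype.val_injective
  full := fun i h hh => ⟨⟨h, hh⟩, rfl⟩
  cover := hcover
  disj := hdisj

/-- The canonical representatives of the double cosets `D \ G / α(H)` give a Mackey system. -/
theorem isMackeySystem_doset :
    IsMackeySystem α D
      (fun q : DoubleCoset.Quotient (D : Set G) (α.range : Set G) => twSub α D q.out)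
      (fun q => (twSub α D q.out).subtype)
      (fun q => twHom α D q.out) (fun q => q.out) := by
  refine isMackeySystem_tw α D _ ?_ ?_
  · intro g
    obtain ⟨d, r, hd, hr, hq⟩ := DoubleCoset.mk_out_eq_mul D α.range g
    obtain ⟨h, rfl⟩ := hr
    refine ⟨DoubleCoset.mk D α.range g, ⟨d⁻¹, D.inv_mem hd⟩, h⁻¹, ?_⟩
    rw [hq]
    simp [mul_assoc]
  · intro q q' d h hq
    have h1 : DoubleCoset.mk D α.range q'.out = DoubleCoset.mk D α.range q.out :=
      (DoubleCoset.eq D α.range _ _).2 ⟨d, d.2, α h, ⟨h, rfl⟩, hq⟩
    rw [DoubleCoset.out_eq', DoubleCoset.out_eq'] at h1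
    exact h1.symm

end Tw

section Main

variable {α : H →* G} {D : Subgroup G}

/-- **Classical Mackey decomposition** for a system of double coset representatives. -/
theorem mackeyTw_bijective (hα : Function.Injective α) {ι : Type v} (x : ι → G)
    (hcover : ∀ g : G, ∃ i, ∃ d : D, ∃ h : H, g = (d : G) * x i * α h)
    (hdisj : ∀ i i' (d : D) (h : H), x i = (d : G) * x i' * α h → i = i')
    (A : Rep.{u} k D) (n : ℕ) :
    Function.Bijective (mackeyPi (isMackeySystem_tw α D x hcover hdisj) A n) :=
  mackeyPi_bijective hα _ n A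

/-- **Classical Mackey decomposition** for the canonical double coset representatives. -/
theorem mackeyDoset_bijective (hα : Function.Injective α) (A : Rep.{u} k D) (n : ℕ) :
    Function.Bijective (mackeyPi (isMackeySystem_doset α D) A n) :=
  mackeyPi_bijective hα _ n A

end Main

end Fermat.Agent.S55.Mackey
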