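import Fermat.Agent.S55.Mackey.Defs

/-!
# S55 (helper61): Mackey–Shapiro — acyclicity and exactness inputs

* `isZero_res_funRep_of_injective` : for an injective `β : S →* G₀`,
  `Hⁿ⁺¹(S, Res_β (G₀ → V)) = 0`;
* `coindFunRepIso` : `Coind_D^G (D → V) ≅ (G → V)`;
* `isZero_indRes_funRep` : for injective `α : H →* G`, `Hⁿ⁺¹(H, Res_α Coind_D^G (D → V)) = 0`;
* `indResSC_shortExact` : `Res_α Coind_D^G` of the dimension shifting sequence is short exact.
-/

set_option autoImplicit false

open CategoryTheory CategoryTheory.Limits groupCohomology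

namespace Fermat.Agent.S55.Mackey

open Fermat.Agent.S55.H783

universe u

variable {k : Type u} [CommRing k]

section Injective

variable {S G₀ : Type u} [Group S] [Group G₀]

/-- Cohomology of the restriction along an injective homomorphism is the cohomology of the
restriction to its range. -/
noncomputable def resRangeIso (β : S →* G₀) (hβ : Function.Injective β) (X : Rep k G₀) (n : ℕ) :
    groupCohomology (Rep.res β X) n ≅ groupCohomology (Rep.res β.range.subtype X) n :=
  mapIso (A := Rep.res β.range.subtype X) (B := Rep.res β X) (MonoidHom.ofInjective hβ)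
    (LinearEquiv.refl k X.V) (fun g => by
      ext v
      rfl) n

theorem isZero_res_funRep_of_injective (β : S →* G₀) (hβ : Function.Injective β)
    (V : Type u) [AddCommGroup V] [Module k V] (n : ℕ) :
    IsZero (groupCohomology (Rep.res β (funRep k G₀ V)) (n + 1)) :=
  (isZero_res_funRep β.range V n).of_iso (resRangeIso β hβ (funRep k G₀ V) (n + 1))

end Injective

variable {H G : Type u} [Group H] [Group G] (α : H →* G) (D : Subgroup G)

section CoindFun

variable (V : Type u) [AddCommGroup V] [Module k V]

/-- `Coind_D^G (D → V) ≃ (G → V)`, `f ↦ (g ↦ f g 1)`. -/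
noncomputable def coindFunEquiv :
    (Rep.coind D.subtype (funRep k D V)).V ≃ₗ[k] (G → V) where
  toFun f := fun g => f.1 g 1
  invFun F := ⟨fun g d => F ((d : G) * g), fun d₀ g => by
    funext d
    change F ((d : G) * ((d₀ : G) * g)) = F (((d * d₀ : D) : G) * g)
    rw [Subgroup.coe_mul, mul_assoc]⟩
  map_add' _ _ := rfl
  map_smul' _ _ := rfl
  left_inv f := by
    apply Subtype.ext
    funext g d
    change f.1 ((d : G) * g) 1 = f.1 g d
    rw [coind_apply_mul]
    change f.1 g (1 * d) = f.1 g d
    rw [one_mul]
  right_inv F := by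
    funext g
    change F (((1 : D) : G) * g) = F g
    rw [Subgroup.coe_one, one_mul]

/-- `Coind_D^G (D → V) ≅ (G → V)`. -/
noncomputable def coindFunRepIso :
    Rep.coind D.subtype (funRep k D V) ≅ funRep k G V :=
  Rep.mkIso (ρ := (Rep.coind D.subtype (funRep k D V)).ρ) (σ := funRho k G V)
    { toLinearEquiv := coindFunEquiv D V
      isIntertwining' := fun g => by
        ext f
        rfl }

theorem isZero_indRes_funRep (hα : Function.Injective α) (n : ℕ) :
    IsZero (groupCohomology (indRes α (funRep k D V)) (n + 1)) :=
  (isZero_res_funRep_of_injective α hα V n).of_iso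
    ((groupCohomology.functor k H (n + 1)).mapIso
      ((Rep.resFunctor α).mapIso (coindFunRepIso D V)))

end CoindFun

section Exact

variable {D}
variable (A : Rep k D)

/-- `Coind_D^G` of the dimension shifting sequence `0 → A → (D → A) → A' → 0`. -/
noncomputable abbrev coindSC : ShortComplex (Rep k G) :=
  (shiftSC A).map (Rep.coindFunctor k D.subtype)

lemma coindSC_shortExact : (coindSC (G := G) A).ShortExact where
  exact := by
    rw [← ShortComplex.exact_map_iff_of_faithful _ (forget₂ (Rep k G) (ModuleCat k)),
      ShortComplex.moduleCat_exact_iff_ker_sub_range]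
    intro f hf
    -- `f : G → (D → A)` is `D`-equivariant and projects to zero
    have hf' : ∀ g : G, (shiftProj A).hom (f.1 g) = 0 := fun g =>
      congrFun (congrArg Subtype.val hf) g
    have hmem : ∀ g : G, f.1 g ∈ shiftRange A := fun g => (shiftProj_eq_zero_iff A _).1 (hf' g)
    choose a ha using hmem
    have ha' : ∀ g : G, (shiftIncl A).hom (a g) = f.1 g := ha
    refine ⟨⟨a, fun d g => ?_⟩, Subtype.ext (funext fun g => ha' g)⟩
    apply shiftIncl_injective A
    have h1 : f.1 ((d : G) * g) = (funRep k D A.V).ρ d (f.1 g) := f.2 d g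
    have h2 := Rep.hom_comm_apply (shiftIncl A) d (a g)
    exact (ha' _).trans (h1.trans ((congrArg ((funRep k D A.V).ρ d) (ha' g).symm).trans h2.symm))
  mono_f := by
    rw [Rep.mono_iff_injective]
    intro f₁ f₂ h
    apply Subtype.ext
    funext g
    apply shiftIncl_injective A
    exact congrFun (congrArg Subtype.val h) g
  epi_g := by
    have : Epi (shiftSC A).g := (shiftSC_shortExact A).epi_g
    exact (Rep.coindFunctor k D.subtype).map_epi (shiftSC A).g

/-- `Res_α Coind_D^G` of the dimension shifting sequence. -/
noncomputable abbrev indResSC : ShortComplex (Rep k H) :=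
  (coindSC (G := G) A).map (Rep.resFunctor α)

lemma indResSC_shortExact : (indResSC α A).ShortExact :=
  (Rep.shortExact_res α).2 (coindSC_shortExact A)

end Exact

end Fermat.Agent.S55.Mackey
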