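import Fermat.Agent.S55.H783.ResCor

/-!
# S55 (helper61): Mackey–Shapiro decomposition for group cohomology — definitions

`α : H →* G` a group homomorphism, `D ≤ G` a subgroup, `A : Rep k D`.
A *Mackey system* consists of groups `Hs i`, homomorphisms `j i : Hs i →* H`, `κ i : Hs i →* D`
and elements `x i : G` such that `x i * α (j i h') = κ i h' * x i`, `j i` identifies `Hs i` with
`{h : H | x i * α h * (x i)⁻¹ ∈ D}`, and the `x i` represent the double cosets `D \ G / α(H)`.

Evaluation at `x i` is an `Hs i`-equivariant map `Res_α Coind_D^G A → Res(κ i) A` (`evAt`), and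
`mackeyComp … i n : Hⁿ(H, Res_α Coind_D^G A) ⟶ Hⁿ(Hs i, Res(κ i) A)` is the induced map.

Main theorem (`Fermat.Agent.S55.Mackey.mackeyPi_bijective`, file `Main.lean`):
if `α` is injective then `c ↦ (mackeyComp … i n c)_i` is bijective for every `n`.
Special cases: explicit Shapiro lemma (`shapiro_bijective`), the classical Mackey formula
with `Hs x = H ∩ x⁻¹ D x` (`mackeyTw_bijective`).
-/

set_option autoImplicit false

open CategoryTheory CategoryTheory.Limits groupCohomology

namespace Fermat.Agent.S55.Mackey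

universe u v

variable {k H G : Type u} [CommRing k] [Group H] [Group G]

/-- A system of twisted intersections and double coset representatives (see the file header). -/
structure IsMackeySystem {ι : Type v} (α : H →* G) (D : Subgroup G) (Hs : ι → Type u)
    [∀ i, Group (Hs i)] (j : ∀ i, Hs i →* H) (κ : ∀ i, Hs i →* D) (x : ι → G) : Prop where
  comm : ∀ i (h' : Hs i), x i * α (j i h') = (κ i h' : G) * x i
  inj : ∀ i, Function.Injective (j i)
  full : ∀ i (h : H), x i * α h * (x i)⁻¹ ∈ D → ∃ h' : Hs i, j i h' = h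
  cover : ∀ g : G, ∃ i, ∃ d : D, ∃ h : H, g = (d : G) * x i * α h
  disj : ∀ i i' (d : D) (h : H), x i = (d : G) * x i' * α h → i = i'

variable (α : H →* G) {D : Subgroup G} (A : Rep.{u} k D)

/-- `Res_α Coind_D^G A`, a representation of `H`. -/
noncomputable abbrev indRes : Rep k H := Rep.res α (Rep.coind D.subtype A)

lemma coind_apply_mul (f : (Rep.coind D.subtype A).V) (d : D) (g : G) :
    f.1 ((d : G) * g) = A.ρ d (f.1 g) := f.2 d g

lemma indRes_ρ_apply (h : H) (f : (indRes α A).V) (g : G) :
    ((indRes α A).ρ h f).1 g = f.1 (g * α h) := rfl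

/-- The map `Res_α Coind_D^G A ⟶ Res_α Coind_D^G B` induced by `φ : A ⟶ B`. -/
noncomputable abbrev indResMap {A B : Rep.{u} k D} (φ : A ⟶ B) : indRes α A ⟶ indRes α B :=
  (Rep.resFunctor α).map ((Rep.coindFunctor k D.subtype).map φ)

lemma indResMap_hom_apply {A B : Rep.{u} k D} (φ : A ⟶ B) (f : (indRes α A).V) (g : G) :
    ((indResMap α φ).hom f).1 g = φ.hom (f.1 g) := rfl

section Comp

variable {Hs : Type u} [Group Hs] (j : Hs →* H) (κ : Hs →* D) (x : G)
  (hcomm : ∀ h' : Hs, x * α (j h') = (κ h' : G) * x)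

/-- Evaluation at `x`, an `Hs`-equivariant map `Res_α Coind_D^G A → Res(κ) A`. -/
noncomputable def evAt : Rep.res j (indRes α A) ⟶ Rep.res κ A :=
  Rep.ofHom (ρ := (Rep.res j (indRes α A)).ρ) (σ := (Rep.res κ A).ρ)
    ⟨{ toFun := fun f => f.1 x
       map_add' := fun _ _ => rfl
       map_smul' := fun _ _ => rfl }, fun h => by
      ext f
      change f.1 (x * α (j h)) = A.ρ (κ h) (f.1 x)
      rw [hcomm h, coind_apply_mul]⟩

@[simp]
lemma evAt_hom_apply (f : (indRes α A).V) :
    (evAt α A j κ x hcomm).hom f = f.1 x := rfl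

/-- The component of the Mackey–Shapiro map. -/
noncomputable def mackeyComp (n : ℕ) :
    groupCohomology (indRes α A) n ⟶ groupCohomology (Rep.res κ A) n :=
  map j (evAt α A j κ x hcomm) n

/-- Naturality of `evAt` in the coefficients. -/
lemma evAt_naturality {A B : Rep.{u} k D} (φ : A ⟶ B) :
    (Rep.resFunctor j).map (indResMap α φ) ≫ evAt α B j κ x hcomm =
      evAt α A j κ x hcomm ≫ (Rep.resFunctor κ).map φ := by
  ext f
  rfl

/-- Naturality of `mackeyComp` in the coefficients. -/
lemma mackeyComp_naturality {A B : Rep.{u} k D} (φ : A ⟶ B) (n : ℕ) :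
    map (MonoidHom.id H) (indResMap α φ) n ≫ mackeyComp α B j κ x hcomm n =
      mackeyComp α A j κ x hcomm n ≫ map (MonoidHom.id Hs) ((Rep.resFunctor κ).map φ) n := by
  unfold mackeyComp
  rw [← map_comp, ← map_comp]
  exact map_congr rfl (by
    have := evAt_naturality α j κ x hcomm φ
    exact congrArg (fun ψ => ψ.hom.toLinearMap) this) n

end Comp

end Fermat.Agent.S55.Mackey
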