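import Fermat.Agent.S55.Mackey.Main

/-!
# S55 (helper61): Mackey–Shapiro — user-facing forms

* `shapiro_bijective` : explicit Shapiro lemma, `Hⁿ(G, Coind_S^G A) → Hⁿ(S, A)` induced by
  `S ↪ G` and evaluation at `1` is bijective;
* `twEv`, `mackey_bijective_of_bijective` : for a `G`-representation `M` and a `D`-equivariant map
  `π : M → A` such that `m ↦ (g ↦ π (g • m))` is a bijection of `M` onto `Coind_D^G A`, the map
  `Hⁿ(H, Res_α M) → ∏ᵢ Hⁿ(Hs i, Res(κ i) A)` induced by `j i` and `m ↦ π (x i • m)` is bijective;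
* `shapiro_bijective_of_bijective` : the same for `H = G`: `Hⁿ(G, M) → Hⁿ(D, A)` induced by
  `D ↪ G` and `π` is bijective.
-/

set_option autoImplicit false

open CategoryTheory CategoryTheory.Limits groupCohomology

namespace Fermat.Agent.S55.Mackey

universe u v

variable {k G : Type u} [CommRing k] [Group G]

section Shapiro

variable (S : Subgroup G)

/-- The trivial Mackey system computing `Hⁿ(G, Coind_S^G A)`. -/
lemma isMackeySystem_shapiro :
    IsMackeySystem (ι := Unit) (MonoidHom.id G) S (fun _ => S) (fun _ => S.subtype)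
      (fun _ => MonoidHom.id S) (fun _ => 1) where
  comm := fun _ h' => by simp
  inj := fun _ => Subtype.val_injective
  full := fun _ h hh => ⟨⟨h, by simpa using hh⟩, rfl⟩
  cover := fun g => ⟨(), 1, g, by simp⟩
  disj := fun _ _ _ _ _ => rfl

/-- Evaluation at `1`, an `S`-equivariant map `Coind_S^G A → A`. -/
noncomputable def shapiroEv (A : Rep.{u} k S) : Rep.res S.subtype (Rep.coind S.subtype A) ⟶ A :=
  evAt (MonoidHom.id G) A S.subtype (MonoidHom.id S) 1 (fun h' => by simp)

@[simp]
lemma shapiroEv_hom_apply (A : Rep.{u} k S) (f : (Rep.coind S.subtype A).V) :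
    (shapiroEv S A).hom f = f.1 1 := rfl

/-- **Explicit Shapiro lemma**: the map `Hⁿ(G, Coind_S^G A) → Hⁿ(S, A)` induced by the inclusion
`S ↪ G` and evaluation at `1` is bijective. -/
theorem shapiro_bijective (A : Rep.{u} k S) (n : ℕ) :
    Function.Bijective (map S.subtype (shapiroEv S A) n).hom := by
  have h := mackeyPi_bijective (k := k) (Function.injective_id) (isMackeySystem_shapiro S) n A
  have h2 : Function.Bijective
      (fun f : (∀ _ : Unit, groupCohomology (Rep.res (MonoidHom.id S) A) n) => f ()) :=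
    ⟨fun f g hfg => funext fun _ => hfg, fun y => ⟨fun _ => y, rfl⟩⟩
  exact h2.comp h

end Shapiro

section User

variable {H : Type u} [Group H]
variable {ι : Type v} {α : H →* G} {D : Subgroup G} {Hs : ι → Type u} [∀ i, Group (Hs i)]
  {j : ∀ i, Hs i →* H} {κ : ∀ i, Hs i →* D} {x : ι → G}

/-- The lift `M → Coind_D^G A`, `m ↦ (g ↦ π (g • m))`, of a `D`-equivariant map `π : M → A`
(this is Mathlib's `Rep.resCoindToHom` with all universes equal). -/
noncomputable abbrev coindLift {D : Subgroup G} {M : Rep.{u} k G} {A : Rep.{u} k D}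
    (π : Rep.res D.subtype M ⟶ A) : M ⟶ Rep.coind D.subtype A :=
  Rep.resCoindToHom.{u, u, u, u} D.subtype M A π

lemma coindLift_hom_apply {D : Subgroup G} {M : Rep.{u} k G} {A : Rep.{u} k D}
    (π : Rep.res D.subtype M ⟶ A) (m : M.V) (g : G) :
    ((coindLift π).hom m).1 g = π.hom (M.ρ g m) := rfl

/-- For `M : Rep k G` and a `D`-equivariant map `π : M → A`, the `Hs i`-equivariant map
`m ↦ π (x i • m)` from `M` to `A`. -/
noncomputable def twEv (hsys : IsMackeySystem α D Hs j κ x) {M : Rep.{u} k G} {A : Rep.{u} k D}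
    (π : Rep.res D.subtype M ⟶ A) (i : ι) :
    Rep.res (j i) (Rep.res α M) ⟶ Rep.res (κ i) A :=
  (Rep.resFunctor (j i)).map ((Rep.resFunctor α).map (coindLift π)) ≫
    evAt α A (j i) (κ i) (x i) (hsys.comm i)

lemma twEv_hom_apply (hsys : IsMackeySystem α D Hs j κ x) {M : Rep.{u} k G} {A : Rep.{u} k D}
    (π : Rep.res D.subtype M ⟶ A) (i : ι) (m : M.V) :
    (twEv hsys π i).hom m = π.hom (M.ρ (x i) m) := rfl

/-- **Mackey decomposition, user-facing form.** If `π : M → A` is `D`-equivariant and
`m ↦ (g ↦ π (g • m))` is a bijection of `M` onto `Coind_D^G A`, then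
`Hⁿ(H, Res_α M) → ∏ᵢ Hⁿ(Hs i, Res(κ i) A)`, induced by `j i` and `m ↦ π (x i • m)`, is
bijective. -/
theorem mackey_bijective_of_bijective (hα : Function.Injective α)
    (hsys : IsMackeySystem α D Hs j κ x) {M : Rep.{u} k G} {A : Rep.{u} k D}
    (π : Rep.res D.subtype M ⟶ A)
    (hπ : Function.Bijective (coindLift π).hom) (n : ℕ) :
    Function.Bijective (fun (c : groupCohomology (Rep.res α M) n) (i : ι) =>
      (map (j i) (twEv hsys π i) n).hom c) := by
  -- the lift is an isomorphism
  have hiso : IsIso (coindLift π) := by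
    have h1 : Mono (coindLift π) := (Rep.mono_iff_injective _).2 hπ.1
    have h2 : Epi (coindLift π) := (Rep.epi_iff_surjective _).2 hπ.2
    exact isIso_of_mono_of_epi _
  have hiso1 : IsIso ((Rep.resFunctor α).map (coindLift π)) := Functor.map_isIso _ _
  have hiso2 : IsIso ((groupCohomology.functor k H n).map
      ((Rep.resFunctor α).map (coindLift π))) := Functor.map_isIso _ _
  have hbij : Function.Bijective ((groupCohomology.functor k H n).map
      ((Rep.resFunctor α).map (coindLift π))).hom :=
    ConcreteCategory.bijective_of_isIso _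
  have hcomp : (fun (c : groupCohomology (Rep.res α M) n) (i : ι) =>
      (map (j i) (twEv hsys π i) n).hom c) =
      (mackeyPi hsys A n) ∘ ((groupCohomology.functor k H n).map
      ((Rep.resFunctor α).map (coindLift π))).hom := by
    funext c i
    have h := map_comp (A := Rep.res α M) (B := indRes α A) (MonoidHom.id H) (j i)
      ((Rep.resFunctor α).map (coindLift π))
      (evAt α A (j i) (κ i) (x i) (hsys.comm i)) n
    exact congrArg (fun f => f.hom c) h
  rw [hcomp]
  exact (mackeyPi_bijective hα hsys n A).comp hbij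

/-- **Shapiro, user-facing form.** If `π : M → A` is `D`-equivariant and `m ↦ (g ↦ π (g • m))` is
a bijection of `M` onto `Coind_D^G A`, then `Hⁿ(G, M) → Hⁿ(D, A)`, induced by `D ↪ G` and `π`,
is bijective. -/
theorem shapiro_bijective_of_bijective {D : Subgroup G} {M : Rep.{u} k G} {A : Rep.{u} k D}
    (π : Rep.res D.subtype M ⟶ A)
    (hπ : Function.Bijective (coindLift π).hom) (n : ℕ) :
    Function.Bijective (map D.subtype π n).hom := by
  have h := mackey_bijective_of_bijective (k := k) Function.injective_id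
    (isMackeySystem_shapiro D) π hπ n
  have h2 : Function.Bijective
      (fun f : (∀ _ : Unit, groupCohomology (Rep.res (MonoidHom.id D) A) n) => f ()) :=
    ⟨fun f g hfg => funext fun _ => hfg, fun y => ⟨fun _ => y, rfl⟩⟩
  have h3 := h2.comp h
  have h4 : twEv (isMackeySystem_shapiro D) π () = π := by
    ext m
    change π.hom (M.ρ 1 m) = π.hom m
    rw [map_one]
    rfl
  have h5 : (map D.subtype π n).hom =
      (fun f : (∀ _ : Unit, groupCohomology (Rep.res (MonoidHom.id D) A) n) => f ()) ∘
      (fun (c : groupCohomology (Rep.res (MonoidHom.id G) M) n) (i : Unit) =>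
      (map D.subtype (twEv (isMackeySystem_shapiro D) π i) n).hom c) := by
    funext c
    change _ = (map D.subtype (twEv (isMackeySystem_shapiro D) π ()) n).hom c
    rw [h4]
  rw [h5]
  exact h3

end User

end Fermat.Agent.S55.Mackey
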