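import Fermat.Agent.S55.Mackey.Acyclic

/-!
# S55 (helper61): Mackey–Shapiro — the map `mackeyPi` and bijectivity in degree 0
-/

set_option autoImplicit false

open CategoryTheory CategoryTheory.Limits groupCohomology

namespace Fermat.Agent.S55.Mackey

universe u v

variable {k H G : Type u} [CommRing k] [Group H] [Group G]
variable {ι : Type v} {α : H →* G} {D : Subgroup G} {Hs : ι → Type u} [∀ i, Group (Hs i)]
  {j : ∀ i, Hs i →* H} {κ : ∀ i, Hs i →* D} {x : ι → G}

/-- The Mackey–Shapiro map `Hⁿ(H, Res_α Coind_D^G A) → ∏ᵢ Hⁿ(Hs i, Res(κ i) A)`. -/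
noncomputable def mackeyPi (hsys : IsMackeySystem α D Hs j κ x) (A : Rep k D) (n : ℕ) :
    groupCohomology (indRes α A) n →ₗ[k] ∀ i, groupCohomology (Rep.res (κ i) A) n :=
  LinearMap.pi fun i => (mackeyComp α A (j i) (κ i) (x i) (hsys.comm i) n).hom

lemma mackeyPi_apply (hsys : IsMackeySystem α D Hs j κ x) (A : Rep k D) (n : ℕ)
    (c : groupCohomology (indRes α A) n) (i : ι) :
    mackeyPi hsys A n c i = (mackeyComp α A (j i) (κ i) (x i) (hsys.comm i) n).hom c := rfl

section Zero

variable (hsys : IsMackeySystem α D Hs j κ x) (A : Rep k D)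

/-- In degree `0` the component maps are evaluation at `x i` on invariants. -/
lemma H0Iso_mackeyComp (i : ι) (c : groupCohomology (indRes α A) 0) :
    (((H0Iso (Rep.res (κ i) A)).hom
      ((mackeyComp α A (j i) (κ i) (x i) (hsys.comm i) 0).hom c) :
        (Rep.res (κ i) A).ρ.invariants) : A.V) =
      (((H0Iso (indRes α A)).hom c : (indRes α A).ρ.invariants) : (indRes α A).V).1 (x i) := by
  have h := map_H0Iso_hom_f_apply (j i) (evAt α A (j i) (κ i) (x i) (hsys.comm i)) c
  exact h

lemma indRes_invariant_apply (a : (indRes α A).ρ.invariants) (g : G) (h : H) :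
    (a : (indRes α A).V).1 (g * α h) = (a : (indRes α A).V).1 g := by
  have h1 : (indRes α A).ρ h (a : (indRes α A).V) = (a : (indRes α A).V) := a.2 h
  have h2 := congrFun (congrArg Subtype.val h1) g
  exact h2

include hsys in
lemma mackeyPi_zero_injective : Function.Injective (mackeyPi hsys A 0) := by
  rw [injective_iff_map_eq_zero]
  intro c hc
  have ha : ∀ i, (((H0Iso (indRes α A)).hom c : (indRes α A).ρ.invariants) :
      (indRes α A).V).1 (x i) = 0 := by
    intro i
    rw [← H0Iso_mackeyComp hsys A i c]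
    have h1 : (mackeyComp α A (j i) (κ i) (x i) (hsys.comm i) 0).hom c = 0 :=
      congrFun hc i
    rw [h1, map_zero]
    rfl
  set a : (indRes α A).ρ.invariants := (H0Iso (indRes α A)).hom c with hadef
  have hzero : (a : (indRes α A).V) = 0 := by
    apply Subtype.ext
    funext g
    obtain ⟨i, d, h, rfl⟩ := hsys.cover g
    rw [indRes_invariant_apply A a, coind_apply_mul, ha i, map_zero]
    rfl
  have ha0 : a = 0 := Subtype.ext hzero
  have h3 : (H0Iso (indRes α A)).hom c = (H0Iso (indRes α A)).hom 0 := by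
    rw [map_zero]
    exact ha0
  exact (ConcreteCategory.bijective_of_isIso (H0Iso (indRes α A)).hom).1 h3

section Surj

variable (b : ∀ i, (Rep.res (κ i) A).ρ.invariants)

/-- Independence of the decomposition `g = d * x i * α h`. -/
lemma rho_eq_of_decomp {A : Rep k D} (hsys : IsMackeySystem α D Hs j κ x)
    (b : ∀ i, (Rep.res (κ i) A).ρ.invariants) {i i' : ι} {d d' : D} {h h' : H}
    (e : (d : G) * x i * α h = (d' : G) * x i' * α h') :
    A.ρ d ((b i : (Rep.res (κ i) A).V) : A.V) = A.ρ d' ((b i' : (Rep.res (κ i') A).V) : A.V) := by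
  have hi : i = i' := by
    apply hsys.disj i i' (d⁻¹ * d') (h' * h⁻¹)
    have : x i = (d : G)⁻¹ * ((d : G) * x i * α h) * (α h)⁻¹ := by group
    rw [this, e]
    simp only [Subgroup.coe_mul, Subgroup.coe_inv, map_mul, map_inv]
    group
  subst hi
  -- `x i * α (h * h'⁻¹) * (x i)⁻¹ = d⁻¹ * d'`
  have hconj : x i * α (h * h'⁻¹) * (x i)⁻¹ = ((d⁻¹ * d' : D) : G) := by
    have : x i * α h = (d : G)⁻¹ * ((d : G) * x i * α h) := by group
    simp only [map_mul, map_inv, Subgroup.coe_mul, Subgroup.coe_inv]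
    calc x i * (α h * (α h')⁻¹) * (x i)⁻¹ = (x i * α h) * (α h')⁻¹ * (x i)⁻¹ := by group
      _ = (d : G)⁻¹ * ((d' : G) * x i * α h') * (α h')⁻¹ * (x i)⁻¹ := by rw [this, e]
      _ = (d : G)⁻¹ * (d' : G) := by group
  obtain ⟨h'', hh''⟩ := hsys.full i (h * h'⁻¹) (by rw [hconj]; exact (d⁻¹ * d').2)
  have hκ : κ i h'' = d⁻¹ * d' := by
    apply Subtype.ext
    have h1 := hsys.comm i h''
    rw [hh''] at h1
    have h2 : ((κ i h'' : D) : G) = x i * α (h * h'⁻¹) * (x i)⁻¹ := by
      rw [h1]
      group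
    rw [h2, hconj]
  have hinv : A.ρ (κ i h'') ((b i : (Rep.res (κ i) A).V) : A.V) = (b i : (Rep.res (κ i) A).V) :=
    (b i).2 h''
  rw [hκ] at hinv
  have h3 : A.ρ d (A.ρ (d⁻¹ * d') ((b i : (Rep.res (κ i) A).V) : A.V)) =
      A.ρ d' ((b i : (Rep.res (κ i) A).V) : A.V) := by
    rw [← Module.End.mul_apply, ← map_mul]
    congr 2
    group
  rw [← h3, hinv]

/-- The invariant function attached to a family of invariants `b i`. -/
noncomputable def glueFun {A : Rep k D} (hsys : IsMackeySystem α D Hs j κ x)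
    (b : ∀ i, (Rep.res (κ i) A).ρ.invariants) (g : G) : A.V :=
  A.ρ (Classical.choose (Classical.choose_spec (hsys.cover g)))
    (b (Classical.choose (hsys.cover g))).1

lemma glueFun_eq {A : Rep k D} (hsys : IsMackeySystem α D Hs j κ x)
    (b : ∀ i, (Rep.res (κ i) A).ρ.invariants) (i : ι) (d : D) (h : H) :
    glueFun hsys b ((d : G) * x i * α h) = A.ρ d ((b i : (Rep.res (κ i) A).V) : A.V) := by
  unfold glueFun
  obtain ⟨h', hh'⟩ := Classical.choose_spec (Classical.choose_spec
    (hsys.cover ((d : G) * x i * α h)))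
  exact (rho_eq_of_decomp hsys b hh').symm

/-- The element of `(Res_α Coind_D^G A)^H` attached to a family of invariants. -/
noncomputable def glueInv {A : Rep k D} (hsys : IsMackeySystem α D Hs j κ x)
    (b : ∀ i, (Rep.res (κ i) A).ρ.invariants) : (indRes α A).ρ.invariants :=
  ⟨⟨glueFun hsys b, fun d₀ g => by
      obtain ⟨i, d, h, rfl⟩ := hsys.cover g
      have e : (D.subtype d₀ : G) * ((d : G) * x i * α h) = ((d₀ * d : D) : G) * x i * α h := by
        simp only [Subgroup.coe_mul, Subgroup.subtype_apply]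
        group
      rw [e, glueFun_eq, glueFun_eq, map_mul]
      rfl⟩, fun h₀ => by
      apply Subtype.ext
      funext g
      obtain ⟨i, d, h, rfl⟩ := hsys.cover g
      change glueFun hsys b ((d : G) * x i * α h * α h₀) = glueFun hsys b ((d : G) * x i * α h)
      have e : (d : G) * x i * α h * α h₀ = (d : G) * x i * α (h * h₀) := by
        rw [map_mul]
        group
      rw [e, glueFun_eq, glueFun_eq]⟩

lemma glueInv_apply {A : Rep k D} (hsys : IsMackeySystem α D Hs j κ x)
    (b : ∀ i, (Rep.res (κ i) A).ρ.invariants) (i : ι) :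
    (glueInv hsys b : (indRes α A).V).1 (x i) = ((b i : (Rep.res (κ i) A).V) : A.V) := by
  change glueFun hsys b (x i) = _
  have e : x i = ((1 : D) : G) * x i * α 1 := by simp
  rw [e, glueFun_eq, map_one]
  rfl

include hsys in
lemma mackeyPi_zero_surjective : Function.Surjective (mackeyPi hsys A 0) := by
  intro y
  let b : ∀ i, (Rep.res (κ i) A).ρ.invariants := fun i => (H0Iso (Rep.res (κ i) A)).hom (y i)
  refine ⟨(H0Iso (indRes α A)).inv (glueInv hsys b), ?_⟩
  funext i
  apply (ConcreteCategory.bijective_of_isIso (H0Iso (Rep.res (κ i) A)).hom).1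
  apply Subtype.ext
  rw [mackeyPi_apply]
  have h1 := H0Iso_mackeyComp hsys A i ((H0Iso (indRes α A)).inv (glueInv hsys b))
  refine h1.trans ?_
  have h2 : (H0Iso (indRes α A)).hom ((H0Iso (indRes α A)).inv (glueInv hsys b)) =
      glueInv hsys b := Iso.inv_hom_id_apply (H0Iso (indRes α A)) _
  rw [h2, glueInv_apply]

include hsys in
theorem mackeyPi_zero_bijective : Function.Bijective (mackeyPi hsys A 0) :=
  ⟨mackeyPi_zero_injective hsys A, mackeyPi_zero_surjective hsys A⟩

end Surj

end Zero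

end Fermat.Agent.S55.Mackey
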